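import Fermat.Agent.PIC.Hilb.RankOne
import Fermat.Agent.PIC.Ops.Pos
import Mathlib

/-!
# The ideals of values on sections of a datum: restriction, base change, isomorphisms, twisting down

The lemmas describe `values0` and `values1` under these operations and show that they agree on the
overlap (`values_compat`).
-/

set_option autoImplicit false

universe u

open scoped nonZeroDivisors

namespace Fermat.PIC

noncomputable section

variable {k : Type u} [Field k] {G : CurveCharts k} {B B' : Type u} [CommRing B] [CommRing B']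
  [Algebra k B] [Algebra k B']

/-- A function coprime to `y` is regular. -/
lemma CurveCharts.mem_nonZeroDivisors_of_isCoprime1 {q : G.R1 B} (h : IsCoprime (G.Y1 B) q) :
    q ∈ (G.R1 B)⁰ := by
  obtain ⟨T, hT, hnil⟩ := exists_divX_tensor G.finite1 G.injective1 B
  obtain ⟨a, c, hac⟩ := h
  rw [mem_nonZeroDivisors_iff_right]
  intro r hr
  have h1 : r = G.Y1 B * (a * r) := by linear_combination (-r) * hac + c * hr
  have hpow : ∀ n, (T ^ n) r = a ^ n * r ∧ r = G.Y1 B ^ n * (a ^ n * r) := by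
    intro n
    induction n with
    | zero => simp
    | succ n ih =>
      have h2 : r = G.Y1 B ^ (n + 1) * (a ^ (n + 1) * r) := by
        conv_lhs => rw [ih.2]
        linear_combination (G.Y1 B ^ n * a ^ n) * h1
      refine ⟨?_, h2⟩
      rw [pow_succ', Module.End.mul_apply, ih.1]
      conv_lhs => rw [show a ^ n * r = G.Y1 B * (a ^ (n + 1) * r) by
        linear_combination (a ^ n) * h1]
      exact hT _
  obtain ⟨n, hn⟩ := hnil r
  rw [(hpow n).1] at hn
  rw [(hpow n).2, hn, mul_zero]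

namespace Datum

/-- The values on the overlap of a section on `U0`. -/
lemma values0_map_ρ0 (D : Datum G B) (p : D.P0) :
    (D.values0 p).map (G.ρ0 B) =
      LinearMap.range (LinearMap.applyₗ (R := G.R01 B) (M₂ := G.R01 B) (D.r0 p)) := by
  refine le_antisymm (Ideal.map_le_iff_le_comap.mpr ?_) ?_
  · rintro _ ⟨φ, rfl⟩
    exact ⟨D.dualRes0 φ, D.dualRes0_apply φ p⟩
  · rintro _ ⟨ψ, rfl⟩
    obtain ⟨n, φ, hφ⟩ := D.dual.r0_surj ψ
    refine (Ideal.unit_mul_mem_iff_mem _ ((G.xUnit B).isUnit.pow n)).mp ?_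
    have := LinearMap.congr_fun (show D.dualRes0 φ = _ from hφ) (D.r0 p)
    replace this := (D.dualRes0_apply φ p).symm.trans this
    change _ = (G.xUnit B : G.R01 B) ^ n * ψ (D.r0 p) at this
    exact this ▸ Ideal.mem_map_of_mem _ ⟨φ, rfl⟩

/-- The values on the overlap of a section on `U1`. -/
lemma values1_map_ρ1 (D : Datum G B) (p : D.P1) :
    (D.values1 p).map (G.ρ1 B) =
      LinearMap.range (LinearMap.applyₗ (R := G.R01 B) (M₂ := G.R01 B) (D.r1 p)) := by
  refine le_antisymm (Ideal.map_le_iff_le_comap.mpr ?_) ?_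
  · rintro _ ⟨φ, rfl⟩
    exact ⟨D.dualRes1 φ, D.dualRes1_apply φ p⟩
  · rintro _ ⟨ψ, rfl⟩
    obtain ⟨n, φ, hφ⟩ := D.dual.r1_surj ψ
    refine (Ideal.unit_mul_mem_iff_mem _ ((G.xUnit B)⁻¹.isUnit.pow n)).mp ?_
    have := LinearMap.congr_fun (show D.dualRes1 φ = _ from hφ) (D.r1 p)
    replace this := (D.dualRes1_apply φ p).symm.trans this
    change _ = (↑(G.xUnit B)⁻¹ : G.R01 B) ^ n * ψ (D.r1 p) at this
    exact this ▸ Ideal.mem_map_of_mem _ ⟨φ, rfl⟩

/-- The two ideals of values of a global section agree on the overlap. -/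
lemma values_compat (D : Datum G B) (s : D.H0) :
    (D.values0 s.1.1).map (G.ρ0 B) = (D.values1 s.1.2).map (G.ρ1 B) := by
  rw [values0_map_ρ0, values1_map_ρ1, sub_eq_zero.mp ((D.d_apply s.1).symm.trans s.2)]

/-- Values commute with base change on `U0`. -/
lemma BC.map_values0 {φ : B →ₐ[k] B'} {D : Datum G B} {D' : Datum G B'} (c : BC φ D D')
    (p : D.P0) : (D.values0 p).map (G.bc0 φ) = D'.values0 (c.f0 p) := by
  refine le_antisymm (Ideal.map_le_iff_le_comap.mpr ?_) ?_
  · rintro _ ⟨g, rfl⟩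
    exact ⟨c.dual.f0 g, c.dual_apply0 g p⟩
  · rintro _ ⟨h, rfl⟩
    suffices key : ∀ h : D'.dual.P0, (show Module.Dual (G.R0 B') D'.P0 from h) (c.f0 p) ∈
        (D.values0 p).map (G.bc0 φ) from key h
    intro h
    have hh : h ∈ Submodule.span (G.R0 B') (Set.range c.dual.f0) := c.dual.span0 ▸ Submodule.mem_top
    induction hh using Submodule.span_induction with
    | mem h hh =>
      obtain ⟨g, rfl⟩ := hh
      exact (c.dual_apply0 g p).symm ▸ Ideal.mem_map_of_mem _ ⟨g, rfl⟩
    | zero => exact Ideal.zero_mem _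
    | add a b _ _ ha hb => exact Ideal.add_mem _ ha hb
    | smul a h _ hh => exact Ideal.mul_mem_left _ a hh

/-- Values commute with base change on `U1`. -/
lemma BC.map_values1 {φ : B →ₐ[k] B'} {D : Datum G B} {D' : Datum G B'} (c : BC φ D D')
    (p : D.P1) : (D.values1 p).map (G.bc1 φ) = D'.values1 (c.f1 p) := by
  refine le_antisymm (Ideal.map_le_iff_le_comap.mpr ?_) ?_
  · rintro _ ⟨g, rfl⟩
    exact ⟨c.dual.f1 g, c.dual_apply1 g p⟩
  · rintro _ ⟨h, rfl⟩
    suffices key : ∀ h : D'.dual.P1, (show Module.Dual (G.R1 B') D'.P1 from h) (c.f1 p) ∈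
        (D.values1 p).map (G.bc1 φ) from key h
    intro h
    have hh : h ∈ Submodule.span (G.R1 B') (Set.range c.dual.f1) := c.dual.span1 ▸ Submodule.mem_top
    induction hh using Submodule.span_induction with
    | mem h hh =>
      obtain ⟨g, rfl⟩ := hh
      exact (c.dual_apply1 g p).symm ▸ Ideal.mem_map_of_mem _ ⟨g, rfl⟩
    | zero => exact Ideal.zero_mem _
    | add a b _ _ ha hb => exact Ideal.add_mem _ ha hb
    | smul a h _ hh => exact Ideal.mul_mem_left _ a hh

/-- Values are invariant under isomorphisms on `U0`. -/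
lemma Equiv.values0_eq {D D' : Datum G B} (e : Equiv D D') (p : D.P0) :
    D'.values0 (e.e0 p) = D.values0 p := by
  ext a
  exact ⟨fun ⟨φ, h⟩ ↦ ⟨φ.comp e.e0.toLinearMap, h⟩, fun ⟨φ, h⟩ ↦
    ⟨φ.comp e.e0.symm.toLinearMap, by simpa using h⟩⟩

/-- Values are invariant under isomorphisms on `U1`. -/
lemma Equiv.values1_eq {D D' : Datum G B} (e : Equiv D D') (p : D.P1) :
    D'.values1 (e.e1 p) = D.values1 p := by
  ext a
  exact ⟨fun ⟨φ, h⟩ ↦ ⟨φ.comp e.e1.toLinearMap, h⟩, fun ⟨φ, h⟩ ↦
    ⟨φ.comp e.e1.symm.toLinearMap, by simpa using h⟩⟩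

/-- Values of a multiple by a scalar. -/
lemma values0_smul (D : Datum G B) (a : G.R0 B) (p : D.P0) :
    D.values0 (a • p) = Ideal.span {a} * D.values0 p := by
  ext x
  rw [Ideal.mem_span_singleton_mul, mem_values0]
  constructor
  · rintro ⟨φ, rfl⟩
    exact ⟨φ p, ⟨φ, rfl⟩, (map_smul φ a p).symm⟩
  · rintro ⟨_, ⟨φ, rfl⟩, rfl⟩
    exact ⟨φ, map_smul φ a p⟩

/-- Values of a multiple by a scalar. -/
lemma values1_smul (D : Datum G B) (a : G.R1 B) (p : D.P1) :
    D.values1 (a • p) = Ideal.span {a} * D.values1 p := by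
  ext x
  rw [Ideal.mem_span_singleton_mul, mem_values1]
  constructor
  · rintro ⟨φ, rfl⟩
    exact ⟨φ p, ⟨φ, rfl⟩, (map_smul φ a p).symm⟩
  · rintro ⟨_, ⟨φ, rfl⟩, rfl⟩
    exact ⟨φ, map_smul φ a p⟩

/-- The values on a section of a twist down, on `U0`. -/
lemma values0_sub (D : Datum G B) (E : Div G B) (p : (D.sub E).P0) :
    D.values0 p.1 = E.I0 * (D.sub E).values0 p :=
  values_subtype_smul_top E.I0 p

/-- The values on a section of a twist down, on `U1`. -/
lemma values1_sub (D : Datum G B) (E : Div G B) (p : (D.sub E).P1) :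
    D.values1 p.1 = E.I1 * (D.sub E).values1 p :=
  values_subtype_smul_top E.I1 p

end Datum

end

end Fermat.PIC
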