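import Fermat.Agent.PIC.Ops.Dual
import Mathlib

/-!
# Values of linear forms on elements of invertible modules

Membership in multiples of ideals is tested by linear forms (`mem_smul_top_of_values_le`).
-/

set_option autoImplicit false

namespace Fermat.PIC

noncomputable section

variable {R P : Type*} [CommRing R] [AddCommGroup P] [Module R P]

/-- In an invertible module a linear form moves across the scalar action. -/
lemma invertible_dual_smul_comm [Module.Invertible R P] (φ : Module.Dual R P) (m n : P) :
    φ m • n = φ n • m := by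
  simpa using congrArg (TensorProduct.lift ((LinearMap.lsmul R P).comp φ))
    (Module.Invertible.tmul_comm (R := R) (m₁ := m) (m₂ := n))

/-- A dual basis of an invertible module has trace one. -/
lemma sum_dual_basis_eq_one [Module.Invertible R P] {n : ℕ} (b : Fin n → P)
    (φ : Fin n → Module.Dual R P) (h : ∀ p, ∑ i, φ i p • b i = p) : ∑ i, φ i (b i) = 1 := by
  refine FaithfulSMul.eq_of_smul_eq_smul (α := P) fun p ↦ ?_
  rw [Finset.sum_smul, one_smul]
  conv_rhs => rw [← h p]
  exact Finset.sum_congr rfl fun i _ ↦ invertible_dual_smul_comm (φ i) (b i) p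

/-- An element lies in the multiples of its values. -/
lemma mem_values_smul_top [Module.Finite R P] [Module.Projective R P] (p : P) :
    p ∈ (LinearMap.range (LinearMap.applyₗ (R := R) (M₂ := R) p) : Ideal R) •
      (⊤ : Submodule R P) := by
  obtain ⟨n, b, φ, h⟩ := exists_dual_basis R P
  conv => arg 2; rw [← h p]
  exact Submodule.sum_mem _ fun i _ ↦ Submodule.smul_mem_smul ⟨φ i, rfl⟩ trivial

/-- Membership in the multiples of an ideal is tested by linear forms. -/
lemma mem_smul_top_of_values_le [Module.Finite R P] [Module.Projective R P] {I : Ideal R} {p : P}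
    (h : LinearMap.range (LinearMap.applyₗ (R := R) (M₂ := R) p) ≤ I) :
    p ∈ I • (⊤ : Submodule R P) :=
  Submodule.smul_mono_left h (mem_values_smul_top p)

/-- The multiples of an element are the multiples of its values. -/
lemma values_smul_top_eq_span [Module.Invertible R P] (p : P) :
    (LinearMap.range (LinearMap.applyₗ (R := R) (M₂ := R) p) : Ideal R) • (⊤ : Submodule R P) =
      R ∙ p := by
  refine le_antisymm (Submodule.smul_le.mpr ?_) ?_
  · rintro _ ⟨φ, rfl⟩ m -
    change φ p • m ∈ _
    rw [invertible_dual_smul_comm]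
    exact Submodule.smul_mem _ _ (Submodule.mem_span_singleton_self p)
  · rw [Submodule.span_singleton_le_iff_mem]
    exact mem_values_smul_top p

/-- The values on an element of the multiples of an invertible ideal. -/
lemma values_subtype_smul_top (J : Ideal R) [Module.Invertible R J] (p : smulTop J P) :
    LinearMap.range (LinearMap.applyₗ (R := R) (M₂ := R) (p : P)) =
      J * LinearMap.range (LinearMap.applyₗ (R := R) (M₂ := R) p) := by
  refine le_antisymm ?_ (Ideal.mul_le.mpr ?_)
  · rintro _ ⟨ψ, rfl⟩
    have hmem : ∀ q : smulTop J P, ψ q.1 ∈ J := fun q ↦ by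
      refine Submodule.smul_induction_on q.2 (fun a ha m _ ↦ ?_) fun a b ha hb ↦ ?_
      · rw [map_smul]
        exact J.mul_mem_right _ ha
      · rw [map_add]; exact J.add_mem ha hb
    let h : smulTop J P →ₗ[R] J := (ψ.comp (smulTop J P).subtype).codRestrict J hmem
    obtain ⟨n, j, α, hj⟩ := exists_dual_basis R J
    change ψ p.1 ∈ _
    have e : ψ p.1 = ∑ i, α i (h p) * (j i : R) := by
      conv_lhs => rw [show ψ p.1 = ((h p : J) : R) from rfl, ← hj (h p)]
      simp
    rw [e]
    refine Ideal.sum_mem _ fun i _ ↦ ?_
    exact Ideal.mul_mem_mul_rev (j i).2 ⟨(α i).comp h, rfl⟩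
  · rintro j hj _ ⟨g, rfl⟩
    let φ : Module.Dual R P :=
      g.comp ((DistribSMul.toLinearMap R P j).codRestrict (smulTop J P)
        fun m ↦ Submodule.smul_mem_smul hj trivial)
    refine ⟨φ, ?_⟩
    change g ⟨j • p.1, _⟩ = j * g p
    rw [← smul_eq_mul, ← map_smul]
    rfl

end

end Fermat.PIC
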