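import Fermat.Agent.PIC.Hilb.Section
import Mathlib

/-!
# Sections of twists down by a divisor

`sub_section_classify`: a suitable section of a twist down by `J` identifies the datum with the
bundle of the sum of `J` and the zero scheme of the section.
-/

set_option autoImplicit false

universe u

open scoped nonZeroDivisors

namespace Fermat.PIC

noncomputable section

/-- Invertible ideals with regular cofactor cancel. -/
lemma eq_of_mul_eq_of_cofactor {R : Type*} [CommRing R] {J J' V W : Ideal R} {p : R} (hp : p ∈ R⁰)
    (hJ : J * J' = Ideal.span {p}) (h : J * V = J * W) : V = W := by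
  have h' : Ideal.span {p} * V = Ideal.span {p} * W := by
    rw [← hJ, mul_comm J, mul_assoc, mul_assoc, h]
  have key : ∀ {V W : Ideal R}, Ideal.span {p} * V ≤ Ideal.span {p} * W → V ≤ W := by
    intro V W hle x hx
    obtain ⟨y, hy, hxy⟩ := Ideal.mem_span_singleton_mul.mp
      (hle (Ideal.mul_mem_mul (Ideal.mem_span_singleton_self p) hx))
    have : (x - y) * p = 0 := by linear_combination -hxy
    rwa [sub_eq_zero.mp ((mem_nonZeroDivisors_iff_right.mp hp) _ this)]
  exact le_antisymm (key h'.le) (key h'.ge)

namespace Datum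

variable {k : Type u} [Field k] {G : CurveCharts k} {B : Type u} [CommRing B] [Algebra k B]

/-- A section of a twist down, as a section. -/
def subSection (D : Datum G B) (J : Div G B) (s : (D.sub J).H0) : D.H0 :=
  ⟨(s.1.1.1, s.1.2.1), by
    have h := congrArg Subtype.val (section_compat s)
    rw [LinearMap.mem_ker, d_apply, sub_eq_zero]
    exact h⟩

/-- A section of a twist down whose values cut out `E` identifies the datum with the line bundle of
the sum of the two divisors. -/
theorem Equiv.ofSubSection (D : Datum G B) (J E : Div G B) (s : (D.sub J).H0)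
    (h0 : (D.sub J).values0 s.1.1 = E.I0) (h1 : (D.sub J).values1 s.1.2 = E.I1) :
    Nonempty (Equiv D (pos (E * J))) :=
  Equiv.ofSection D (E * J) (subSection D J s)
    (by rw [Div.mul_I0, mul_comm, ← h0]; exact values0_sub D J s.1.1)
    (by rw [Div.mul_I1, mul_comm, ← h1]; exact values1_sub D J s.1.2)

/-- **The section theorem after twisting down by `J`.** If the section theorem applies to the twist,
the datum is the line bundle of the sum of `J` and the zero scheme of the section. -/
theorem sub_section_classify (D : Datum G B) (J : Div G B) (s : (D.sub J).H0)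
    (hd : Function.Surjective (D.sub J).d)
    (hb : Function.Bijective (LinearMap.toSpanSingleton B (D.sub J).H0 s))
    (hs : (D.sub J).values1 s.1.2 ⊔ Ideal.span {G.Y1 B} = ⊤) :
    ∃ (_ : Module.Finite B (G.R0 B ⧸ (D.sub J).values0 s.1.1))
      (_ : Module.Projective B (G.R0 B ⧸ (D.sub J).values0 s.1.1)),
      Nonempty (Equiv (D.sub J) (pos (Div.ofFinite0 ((D.sub J).values0 s.1.1)))) ∧
      Nonempty (Equiv D (pos (Div.ofFinite0 ((D.sub J).values0 s.1.1) * J))) := by
  obtain ⟨h1, h2, hI, he⟩ := section_classify hd hb hs
  exact ⟨h1, h2, he, Equiv.ofSubSection D J _ s rfl hI.symm⟩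

/-- Twisting the line bundle of a sum of divisors down by one of them. -/
theorem nonempty_pos_mul_sub (E J : Div G B) :
    Nonempty (Equiv ((pos (E * J)).sub J) (pos E)) := by
  have h0 := values0_posSection (E * J)
  have h1 := values1_posSection (E * J)
  have m0 : (posSection (E * J)).1.1 ∈ smulTop J.I0 (pos (E * J)).P0 :=
    mem_smul_top_of_values_le (h0.le.trans Ideal.mul_le_right)
  have m1 : (posSection (E * J)).1.2 ∈ smulTop J.I1 (pos (E * J)).P1 :=
    mem_smul_top_of_values_le (h1.le.trans Ideal.mul_le_right)
  let s : ((pos (E * J)).sub J).H0 := ⟨(⟨_, m0⟩, ⟨_, m1⟩), by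
    rw [LinearMap.mem_ker, d_apply, sub_eq_zero]
    exact Subtype.ext (section_compat (posSection (E * J)))⟩
  refine Equiv.ofSection _ E s ?_ ?_
  · obtain ⟨p, J', hp, hJ⟩ := J.cofactor0
    refine eq_of_mul_eq_of_cofactor hp.mem hJ ?_
    exact ((values0_sub (pos (E * J)) J s.1.1).symm.trans h0).trans (mul_comm E.I0 J.I0)
  · obtain ⟨p, J', hp, hJ⟩ := J.cofactor1
    refine eq_of_mul_eq_of_cofactor hp.mem hJ ?_
    exact ((values1_sub (pos (E * J)) J s.1.2).symm.trans h1).trans (mul_comm E.I1 J.I1)

/-- A datum isomorphic to the line bundle of a sum twists down to that of the summand. -/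
theorem nonempty_sub_equiv_pos {D : Datum G B} {E J : Div G B} (e : Equiv D (pos (E * J))) :
    Nonempty (Equiv (D.sub J) (pos E)) :=
  let ⟨f⟩ := nonempty_pos_mul_sub E J
  ⟨(e.sub J).trans f⟩

end Datum

end

end Fermat.PIC
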