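import Fermat.Agent.PIC.Hilb.Connecting
import Fermat.Agent.PIC.Ops.BaseQuot
import Mathlib

/-!
# Generating near infinity is an open condition tested on fibres

`boundaryLocus` is the open locus; `values1_sup_eq_top_of_forall` tests generation on the fibres.
-/

set_option autoImplicit false

universe u

open scoped TensorProduct

namespace Fermat.PIC

noncomputable section

variable {k : Type u} [Field k] {G : CurveCharts k} {B : Type u} [CommRing B] [Algebra k B]

/-- A quotient of the chart at infinity on which `y` vanishes is finite over the base. -/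
lemma CurveCharts.finite_quotient_of_Y1_mem {J : Ideal (G.R1 B)} (hJ : G.Y1 B ∈ J) :
    Module.Finite B (G.R1 B ⧸ J) := by
  classical
  obtain ⟨t, ht⟩ := exists_finset_span_pow (k := k) (A := G.A1) B (P := G.R1 B) G.finite1
  let π : G.R1 B →ₗ[B] G.R1 B ⧸ J := (Ideal.Quotient.mkₐ B J).toLinearMap
  refine ⟨⟨t.image π, ?_⟩⟩
  rw [eq_top_iff]
  rintro z -
  obtain ⟨r, rfl⟩ := Ideal.Quotient.mk_surjective z
  have hr : r ∈ Submodule.span B
      {p : G.R1 B | ∃ e : ℕ, ∃ l ∈ t, p = ((1 : B) ⊗ₜ[k] G.y : G.R1 B) ^ e • l} :=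
    ht ▸ Submodule.mem_top
  refine (Submodule.span_le (p := (Submodule.span B ((t.image π : Finset (G.R1 B ⧸ J)) :
    Set (G.R1 B ⧸ J))).comap π)).mpr ?_ hr
  rintro _ ⟨e, l, hl, rfl⟩
  change π (G.Y1 B ^ e * l) ∈ Submodule.span B ((t.image π : Finset (G.R1 B ⧸ J)) :
    Set (G.R1 B ⧸ J))
  rcases e with _ | e
  · rw [pow_zero, one_mul]
    exact Submodule.subset_span (Finset.mem_coe.mpr (Finset.mem_image_of_mem _ hl))
  · have : π (G.Y1 B ^ (e + 1) * l) = 0 := Ideal.Quotient.eq_zero_iff_mem.mpr
      (J.mul_mem_right _ (by rw [pow_succ]; exact J.mul_mem_left _ hJ))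
    rw [this]
    exact Submodule.zero_mem _

/-- The points of the base over which an ideal of the chart at infinity has no zero at `y = 0`. -/
def boundaryLocus (V : Ideal (G.R1 B)) : Set (PrimeSpectrum B) :=
  (Module.support B (G.R1 B ⧸ (V ⊔ Ideal.span {G.Y1 B})))ᶜ

/-- The boundary locus is open. -/
theorem isOpen_boundaryLocus (V : Ideal (G.R1 B)) : IsOpen (boundaryLocus V) :=
  have := CurveCharts.finite_quotient_of_Y1_mem (J := V ⊔ Ideal.span {G.Y1 B})
    (Submodule.mem_sup_right (Ideal.mem_span_singleton_self _))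
  Module.isClosed_support.isOpen_compl

/-- Having no zero at `y = 0` on a field over the base depends only on the point. -/
theorem map_sup_eq_top_iff (V : Ideal (G.R1 B)) (K : Type u) [Field K] [Algebra k K] [Algebra B K]
    [IsScalarTower k B K] :
    V.map (G.bc1 (IsScalarTower.toAlgHom k B K)) ⊔ Ideal.span {G.Y1 K} = ⊤ ↔
      fieldPoint B K ∈ boundaryLocus V := by
  have := CurveCharts.finite_quotient_of_Y1_mem (J := V ⊔ Ideal.span {G.Y1 B})
    (Submodule.mem_sup_right (Ideal.mem_span_singleton_self _))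
  obtain ⟨e, -⟩ := exists_quotBC (B' := K) (V ⊔ Ideal.span {G.Y1 B})
  have hm : (V ⊔ Ideal.span {G.Y1 B}).map (G.bc1 (IsScalarTower.toAlgHom k B K)) =
      V.map (G.bc1 (IsScalarTower.toAlgHom k B K)) ⊔ Ideal.span {G.Y1 K} := by
    rw [Ideal.map_sup, Ideal.map_span, Set.image_singleton, G.bc1_Y1]
  rw [← hm, boundaryLocus, Set.mem_compl_iff, ← nontrivial_tensor_field_iff,
    not_nontrivial_iff_subsingleton, e.toEquiv.subsingleton_congr]
  exact (Ideal.Quotient.subsingleton_iff).symm

/-- Having no zero at `y = 0` is tested on residue fields. -/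
theorem sup_eq_top_of_forall (V : Ideal (G.R1 B))
    (h : ∀ p : PrimeSpectrum B, p ∈ boundaryLocus V) : V ⊔ Ideal.span {G.Y1 B} = ⊤ := by
  have := CurveCharts.finite_quotient_of_Y1_mem (J := V ⊔ Ideal.span {G.Y1 B})
    (Submodule.mem_sup_right (Ideal.mem_span_singleton_self _))
  rw [← Ideal.Quotient.subsingleton_iff, ← Module.support_eq_empty_iff (R := B),
    Set.eq_empty_iff_forall_notMem]
  exact h

namespace Datum

/-- The base change of a section to a field generates near infinity iff the point of the base lies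
in the boundary locus of its values. -/
theorem BC.values1_sup_eq_top_iff {K : Type u} [Field K] [Algebra k K] [Algebra B K]
    [IsScalarTower k B K] {N : Datum G B} {N' : Datum G K}
    (c : BC (IsScalarTower.toAlgHom k B K) N N') (s : N.H0) :
    N'.values1 (c.mapH0 s).1.2 ⊔ Ideal.span {G.Y1 K} = ⊤ ↔
      fieldPoint B K ∈ boundaryLocus (N.values1 s.1.2) := by
  rw [← map_sup_eq_top_iff, c.map_values1]
  rfl

/-- A section generates near infinity if it does so on all fibres. -/
theorem values1_sup_eq_top_of_forall (N : Datum G B) (s : N.H0)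
    (h : ∀ p : PrimeSpectrum B,
      (N.fibre p).values1 ((N.fibreBC p).mapH0 s).1.2 ⊔ Ideal.span {G.Y1 p.asIdeal.ResidueField} =
        ⊤) :
    N.values1 s.1.2 ⊔ Ideal.span {G.Y1 B} = ⊤ :=
  sup_eq_top_of_forall _ fun p ↦ by
    simpa [fieldPoint_residueField] using ((N.fibreBC p).values1_sup_eq_top_iff s).mp (h p)

end Datum

end

end Fermat.PIC
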