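import Fermat.Agent.PIC.Ops.Pos
import Fermat.Agent.PIC.Chart.Fibres
import Mathlib

/-!
# First cohomology of the trivial bundle over a base, and base change of global sections

`nonempty_trivial_H1_basis`: this cohomology is free of rank the genus; `BC.mapH0` carries global
sections along a base change.
-/

set_option autoImplicit false

universe u

open scoped TensorProduct

namespace Fermat.PIC

noncomputable section

namespace Datum

variable {k : Type u} [Field k] {G : CurveCharts k} {B B' : Type u} [CommRing B] [CommRing B']
  [Algebra k B] [Algebra k B']

/-- The image of a global section under a base change. -/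
def BC.mapH0 {φ : B →ₐ[k] B'} {D : Datum G B} {D' : Datum G B'} (c : BC φ D D') (s : D.H0) :
    D'.H0 :=
  ⟨(c.f0 s.1.1, c.f1 s.1.2), by
    rw [LinearMap.mem_ker, d_apply, sub_eq_zero]
    change D'.r0 (c.f0 s.1.1) = D'.r1 (c.f1 s.1.2)
    rw [c.comm0, c.comm1, sub_eq_zero.mp ((D.d_apply s.1).symm.trans s.2)]⟩

variable (G B)

/-- The base change of the trivial bundle from the ground field. -/
def trivialBC : BC (IsScalarTower.toAlgHom k k B) (trivial G k) (trivial G B) :=
  BC.trivial _

/-- First cohomology of the trivial bundle comes from the ground field. -/
def trivialH1Equiv : B ⊗[k] (trivial G k).H1 ≃ₗ[B] (trivial G B).H1 :=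
  (trivialBC G B).H1Equiv

/-- First cohomology of the trivial bundle is free. -/
instance free_trivial_H1 : Module.Free B (trivial G B).H1 :=
  Module.Free.of_equiv (trivialH1Equiv G B)

/-- First cohomology of the trivial bundle is free of rank the genus. -/
theorem nonempty_trivial_H1_basis : Nonempty (Module.Basis (Fin G.genus) B (trivial G B).H1) :=
  ⟨((Module.finBasis k (trivial G k).H1).baseChange B).map (trivialH1Equiv G B)⟩

/-- The genus is insensitive to field extensions. -/
theorem finrank_trivial_H1 (K : Type u) [Field K] [Algebra k K] :
    Module.finrank K (trivial G K).H1 = G.genus := by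
  rw [← (trivialH1Equiv G K).finrank_eq, Module.finrank_baseChange]
  rfl

end Datum

end

end Fermat.PIC
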