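import Fermat.Agent.PIC.Hilb.Fibrewise
import Fermat.Agent.PIC.Chart.BasisIdeal
import Fermat.Agent.PIC.Ops.BaseQuot
import Mathlib

/-!
# Having a given basis is a fibrewise and open condition on a finite locally free subscheme

`basisLocus` is the open set of the base where the fibre has the basis, and it classifies the
pullbacks having it (`isBasisIdeal_map_iff_forall`).
-/

set_option autoImplicit false

universe u

open scoped TensorProduct

namespace Fermat.PIC

noncomputable section

variable {k : Type u} [Field k] {A : Type u} [CommRing A] [Algebra k A] {g : ℕ} (b : Fin g → A)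
  {B B' : Type u} [CommRing B] [Algebra k B] [CommRing B'] [Algebra k B'] (I : Ideal (B ⊗[k] A))

/-- The map from coordinates to the quotient. -/
def basisQuotMap : (Fin g → B) →ₗ[B] (B ⊗[k] A) ⧸ I :=
  (Ideal.Quotient.mkₐ B I).toLinearMap ∘ₗ basisMap k b B

/-- Having the basis is bijectivity of the map from coordinates. -/
lemma isBasisIdeal_iff_bijective : IsBasisIdeal b I ↔ Function.Bijective (basisQuotMap b I) :=
  Iff.rfl

/-- Base change of a combination of the chosen elements. -/
lemma bc_basisMap (φ : B →ₐ[k] B') (w : Fin g → B) :
    Algebra.TensorProduct.map φ (AlgHom.id k A) (basisMap k b B w) =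
      basisMap k b B' fun j ↦ φ (w j) := by
  rw [basisMap_apply, basisMap_apply, map_sum]
  refine Finset.sum_congr rfl fun j _ ↦ ?_
  simp [TensorProduct.smul_tmul']

/-- The basis condition after base change is bijectivity of the base changed quotient map. -/
lemma bijective_baseChange_basisQuotMap_iff [Algebra B B'] [IsScalarTower k B B'] :
    Function.Bijective ((basisQuotMap b I).baseChange B') ↔
      IsBasisIdeal b (I.map
        (Algebra.TensorProduct.map (IsScalarTower.toAlgHom k B B') (AlgHom.id k A))) := by
  obtain ⟨e, he⟩ := exists_quotBC (B' := B') I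
  let P := TensorProduct.piScalarRight B B' B' (Fin g)
  have key : ∀ w, basisQuotMap b (I.map
      (Algebra.TensorProduct.map (IsScalarTower.toAlgHom k B B') (AlgHom.id k A))) (P w) =
      e ((basisQuotMap b I).baseChange B' w) := by
    intro w
    induction w using TensorProduct.induction_on with
    | zero => simp
    | add v w hv hw => simp only [map_add, hv, hw]
    | tmul c w =>
      rw [LinearMap.baseChange_tmul]
      refine Eq.trans ?_ (he c (basisMap k b B w)).symm
      rw [bc_basisMap,
        show P (c ⊗ₜ w) = c • fun j ↦ algebraMap B B' (w j) from funext fun j ↦ by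
          simp [P, Algebra.smul_def, mul_comm],
        map_smul]
      rfl
  rw [isBasisIdeal_iff_bijective]
  have e1 : ⇑(basisQuotMap b (I.map
      (Algebra.TensorProduct.map (IsScalarTower.toAlgHom k B B') (AlgHom.id k A)))) ∘ ⇑P =
      ⇑e ∘ ⇑((basisQuotMap b I).baseChange B') := funext key
  rw [← Function.Bijective.of_comp_iff' e.bijective, ← e1,
    Function.Bijective.of_comp_iff _ P.bijective]

/-- The points of the base over which the fibre of the quotient has the given basis. -/
def basisLocus : Set (PrimeSpectrum B) := bijLocus (basisQuotMap b I)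

variable [Module.Finite B ((B ⊗[k] A) ⧸ I)] [Module.Projective B ((B ⊗[k] A) ⧸ I)]

/-- The basis locus is open. -/
theorem isOpen_basisLocus : IsOpen (basisLocus b I) := isOpen_bijLocus _

/-- Having the basis on a field over the base depends only on the point. -/
theorem isBasisIdeal_map_iff (K : Type u) [Field K] [Algebra k K] [Algebra B K]
    [IsScalarTower k B K] :
    IsBasisIdeal b (I.map
        (Algebra.TensorProduct.map (IsScalarTower.toAlgHom k B K) (AlgHom.id k A))) ↔
      fieldPoint B K ∈ basisLocus b I := by
  rw [← bijective_baseChange_basisQuotMap_iff, bijective_baseChange_iff, basisLocus]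

/-- Having the basis is tested on residue fields. -/
theorem isBasisIdeal_iff_forall_residueField :
    IsBasisIdeal b I ↔ ∀ p : PrimeSpectrum B, IsBasisIdeal b (I.map
      (Algebra.TensorProduct.map (IsScalarTower.toAlgHom k B p.asIdeal.ResidueField)
        (AlgHom.id k A))) := by
  rw [isBasisIdeal_iff_bijective, bijective_iff_forall_residueField]
  exact forall_congr' fun p ↦ bijective_baseChange_basisQuotMap_iff b I

/-- The pull back has the basis iff the base maps into the basis locus. -/
theorem isBasisIdeal_map_iff_forall (φ : B →ₐ[k] B') :
    IsBasisIdeal b (I.map (Algebra.TensorProduct.map φ (AlgHom.id k A))) ↔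
      ∀ q : PrimeSpectrum B', q.comap φ.toRingHom ∈ basisLocus b I := by
  obtain ⟨h1, h2⟩ := finite_projective_quotient_map φ I
  rw [isBasisIdeal_iff_forall_residueField b (I.map _)]
  refine forall_congr' fun q ↦ ?_
  let K := q.asIdeal.ResidueField
  let := φ.toRingHom.toAlgebra
  have : IsScalarTower k B B' := IsScalarTower.of_algebraMap_eq fun c ↦ (φ.commutes c).symm
  have : IsScalarTower k B K := IsScalarTower.of_algebraMap_eq fun c ↦ by
    rw [IsScalarTower.algebraMap_apply k B' K, IsScalarTower.algebraMap_apply B B' K,
      IsScalarTower.algebraMap_apply k B B']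
  have hq : fieldPoint B K = q.comap φ.toRingHom := by
    conv_rhs => rw [← fieldPoint_residueField q]
    ext1
    rw [fieldPoint_asIdeal, PrimeSpectrum.comap_asIdeal, fieldPoint_asIdeal]
    rfl
  rw [← hq, ← isBasisIdeal_map_iff]
  have hm : (I.map (Algebra.TensorProduct.map φ (AlgHom.id k A))).map
      (Algebra.TensorProduct.map (IsScalarTower.toAlgHom k B' K) (AlgHom.id k A)) =
      I.map (Algebra.TensorProduct.map (IsScalarTower.toAlgHom k B K) (AlgHom.id k A)) := by
    have hc : (Algebra.TensorProduct.map (IsScalarTower.toAlgHom k B' K) (AlgHom.id k A)).comp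
        (Algebra.TensorProduct.map φ (AlgHom.id k A)) =
        Algebra.TensorProduct.map (IsScalarTower.toAlgHom k B K) (AlgHom.id k A) := by
      rw [← Algebra.TensorProduct.map_comp]
      rfl
    rw [← hc]
    exact Ideal.map_map _ _
  rw [hm]

end

end Fermat.PIC
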