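import Fermat.Agent.PIC.Hilb.Section
import Fermat.Agent.PIC.Hilb.BasisFibre
import Fermat.Agent.PIC.Field.Quot
import Mathlib

/-!
# Uniqueness of the section and the subscheme

The line bundle of a subscheme of length the genus without first cohomology has only the canonical
section, and determines the subscheme.
-/

set_option autoImplicit false

universe u

open scoped TensorProduct

namespace Fermat.PIC

noncomputable section

namespace Datum

variable {k : Type u} [Field k] {G : CurveCharts k} {B : Type u} [CommRing B] [Algebra k B]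

/-- Over a field, a section generating near infinity whose zero scheme has length the genus spans
the global sections when `d` is surjective. -/
theorem bijective_toSpanSingleton_field {K : Type u} [Field K] [Algebra k K] {N : Datum G K}
    {s : N.H0} (hs : N.values1 s.1.2 ⊔ Ideal.span {G.Y1 K} = ⊤) (hd : Function.Surjective N.d)
    [Module.Finite K (G.R0 K ⧸ N.values0 s.1.1)]
    (hg : Module.finrank K (G.R0 K ⧸ N.values0 s.1.1) = G.genus) :
    Function.Bijective (LinearMap.toSpanSingleton K N.H0 s) := by
  refine bijective_toSpanSingleton hs ?_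
  obtain ⟨e⟩ := nonempty_quot_smul_top_equiv K (N.values0 s.1.1) N.P0
  let S := (G.R0 K) ∙ s.1.1
  have hS : N.values0 s.1.1 • (⊤ : Submodule (G.R0 K) N.P0) = S := values_smul_top_eq_span s.1.1
  let e' : (N.P0 ⧸ S.restrictScalars K) ≃ₗ[K] G.R0 K ⧸ N.values0 s.1.1 :=
    (Submodule.Quotient.restrictScalarsEquiv K S).trans
      (((Submodule.quotEquivOfEq _ _ hS.symm).trans e).restrictScalars K)
  have : Module.Finite K (N.P0 ⧸ S.restrictScalars K) := Module.Finite.equiv e'.symm
  have : Module.Finite K (trivial G K).H1 := inferInstance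
  let Φ : (N.P0 ⧸ S.restrictScalars K) →ₗ[K] (trivial G K).H1 :=
    Submodule.liftQ _ (connect hs) (span_le_ker_connect hs)
  have hΦ : Function.Surjective Φ := fun z ↦
    let ⟨m, hm⟩ := connect_surjective hs hd z
    ⟨Submodule.Quotient.mk m, hm⟩
  have hinj : Function.Injective Φ := (LinearMap.injective_iff_surjective_of_finrank_eq_finrank
    (by rw [e'.finrank_eq, hg, finrank_trivial_H1])).mpr hΦ
  intro m hm
  exact (Submodule.Quotient.mk_eq_zero _).mp (hinj (hm.trans (map_zero Φ).symm))

/-- Spanning of the global sections on a fibre. -/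
lemma BC.bijective_mapH0_iff {B' : Type u} [CommRing B'] [Algebra k B'] [Algebra B B']
    [IsScalarTower k B B'] {N : Datum G B} {N' : Datum G B'}
    (c : BC (IsScalarTower.toAlgHom k B B') N N') (hd : Function.Surjective N.d) (s : N.H0) :
    Function.Bijective ((LinearMap.toSpanSingleton B N.H0 s).baseChange B') ↔
      Function.Bijective (LinearMap.toSpanSingleton B' N'.H0 (c.mapH0 s)) := by
  obtain ⟨e, he⟩ := c.exists_H0Equiv hd
  let r := TensorProduct.AlgebraTensorModule.rid B B' B'
  have h : ⇑(LinearMap.toSpanSingleton B' N'.H0 (c.mapH0 s)) ∘ ⇑r =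
      ⇑e ∘ ⇑((LinearMap.toSpanSingleton B N.H0 s).baseChange B') := by
    funext w
    induction w using TensorProduct.induction_on with
    | zero => simp
    | add v w hv hw =>
      simp only [Function.comp_apply, map_add] at hv hw ⊢
      rw [hv, hw]
    | tmul a b =>
      simp only [Function.comp_apply, r, TensorProduct.AlgebraTensorModule.rid_tmul,
        LinearMap.baseChange_tmul, LinearMap.toSpanSingleton_apply]
      rw [TensorProduct.tmul_smul, ← algebraMap_smul B' b (a ⊗ₜ[B] s), map_smul, Algebra.smul_def,
        mul_smul]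
      congr 1
      exact Subtype.ext (he a s).symm
  rw [← Function.Bijective.of_comp_iff' e.bijective, ← h,
    Function.Bijective.of_comp_iff _ r.bijective]

/-- The base change of a section spans the global sections over a field freely iff the point of the
base lies in the locus of bijectivity. -/
theorem BC.bijective_mapH0_iff_mem {K : Type u} [Field K] [Algebra k K] [Algebra B K]
    [IsScalarTower k B K] {N : Datum G B} {N' : Datum G K}
    (c : BC (IsScalarTower.toAlgHom k B K) N N') (hd : Function.Surjective N.d) (s : N.H0) :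
    Function.Bijective (LinearMap.toSpanSingleton K N'.H0 (c.mapH0 s)) ↔
      fieldPoint B K ∈ bijLocus (LinearMap.toSpanSingleton B N.H0 s) := by
  have := N.finite_H0 hd
  have := N.projective_H0 hd
  rw [← c.bijective_mapH0_iff hd s, bijective_baseChange_iff]

/-- A section generating near infinity whose zero scheme is finite projective of rank the genus
spans the global sections freely when `d` is surjective. -/
theorem bijective_toSpanSingleton_of_rank {N : Datum G B} {s : N.H0}
    (hs : N.values1 s.1.2 ⊔ Ideal.span {G.Y1 B} = ⊤) (hd : Function.Surjective N.d)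
    [Module.Finite B (G.R0 B ⧸ N.values0 s.1.1)] [Module.Projective B (G.R0 B ⧸ N.values0 s.1.1)]
    (hr : ∀ p, Module.rankAtStalk (R := B) (G.R0 B ⧸ N.values0 s.1.1) p = G.genus) :
    Function.Bijective (LinearMap.toSpanSingleton B N.H0 s) := by
  have := N.finite_H0 hd
  have := N.projective_H0 hd
  rw [bijective_iff_forall_residueField]
  intro p
  let K := p.asIdeal.ResidueField
  let c := N.fibreBC p
  rw [c.bijective_mapH0_iff hd s]
  obtain ⟨e, -⟩ := exists_quotBC (B' := K) (N.values0 s.1.1)
  have hI : (N.values0 s.1.1).map (G.bc0 (IsScalarTower.toAlgHom k B K)) =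
      (N.fibre p).values0 (c.mapH0 s).1.1 := c.map_values0 _
  let eI : K ⊗[B] (G.R0 B ⧸ N.values0 s.1.1) ≃ₗ[K]
      G.R0 K ⧸ (N.fibre p).values0 (c.mapH0 s).1.1 :=
    e.trans (Ideal.quotientEquivAlgOfEq K hI).toLinearEquiv
  have : Module.Finite K (G.R0 K ⧸ (N.fibre p).values0 (c.mapH0 s).1.1) := Module.Finite.equiv eI
  refine bijective_toSpanSingleton_field ?_ (c.d_surjective hd) ?_
  · have hs' := congrArg (Ideal.map (G.bc1 (IsScalarTower.toAlgHom k B K))) hs
    rw [Ideal.map_sup, Ideal.map_span, Set.image_singleton, G.bc1_Y1, Ideal.map_top,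
      c.map_values1] at hs'
    exact hs'
  · rw [← eI.finrank_eq, finrank_tensor_field, fieldPoint_residueField, hr]

/-- The canonical section generates near infinity. -/
lemma values1_posSection_sup_eq_top (I : Ideal (G.R0 B)) [Module.Finite B (G.R0 B ⧸ I)]
    [Module.Projective B (G.R0 B ⧸ I)] :
    (pos (Div.ofFinite0 I)).values1 (posSection (Div.ofFinite0 I)).1.2 ⊔ Ideal.span {G.Y1 B} =
      ⊤ := by
  obtain ⟨q, ⟨a, c, hac⟩, hq⟩ := Div.exists_coprime_mem_ofFinite0 I
  rw [values1_posSection, Ideal.eq_top_iff_one, ← hac, add_comm]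
  exact add_mem (Submodule.mem_sup_left (Ideal.mul_mem_left _ c hq))
    (Submodule.mem_sup_right (Ideal.mul_mem_left _ a (Ideal.mem_span_singleton_self _)))

/-- The line bundle of a subscheme of length the genus has only the canonical section. -/
theorem bijective_posSection (I : Ideal (G.R0 B)) [Module.Finite B (G.R0 B ⧸ I)]
    [Module.Projective B (G.R0 B ⧸ I)]
    (hr : ∀ p, Module.rankAtStalk (R := B) (G.R0 B ⧸ I) p = G.genus)
    (hd : Function.Surjective (pos (Div.ofFinite0 I)).d) :
    Function.Bijective
      (LinearMap.toSpanSingleton B (pos (Div.ofFinite0 I)).H0 (posSection (Div.ofFinite0 I))) := by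
  have hv : (pos (Div.ofFinite0 I)).values0 (posSection (Div.ofFinite0 I)).1.1 = I :=
    values0_posSection _
  let e := (Ideal.quotientEquivAlgOfEq B hv).toLinearEquiv
  have := Module.Finite.equiv e.symm
  have := Module.Projective.of_equiv e.symm
  refine bijective_toSpanSingleton_of_rank (values1_posSection_sup_eq_top I) hd fun p ↦ ?_
  rw [Module.rankAtStalk_eq_of_equiv e, hr]

/-- An ideal with a basis has quotient of constant rank. -/
lemma rankAtStalk_of_isBasisIdeal {g : ℕ} (b : Fin g → G.A0) (I : Ideal (G.R0 B))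
    (hI : IsBasisIdeal b I) (p : PrimeSpectrum B) :
    Module.rankAtStalk (R := B) (G.R0 B ⧸ I) p = g := by
  have : Nontrivial B := p.nontrivial
  rw [← Module.rankAtStalk_eq_of_equiv (LinearEquiv.ofBijective _
      ((isBasisIdeal_iff_bijective b I).mp hI)), Module.rankAtStalk_eq_finrank_of_free,
    Pi.natCast_apply, Nat.cast_id, Module.finrank_fin_fun]

/-- The line bundle of a subscheme with a basis of genus many elements and no first cohomology on
fibres has only the canonical section. -/
theorem bijective_posSection_of_isBasisIdeal {g : ℕ} (hg : g = G.genus) (b : Fin g → G.A0)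
    (I : Ideal (G.R0 B)) (hI : IsBasisIdeal b I) [Module.Finite B (G.R0 B ⧸ I)]
    [Module.Projective B (G.R0 B ⧸ I)]
    (h1 : ∀ p, ((pos (Div.ofFinite0 I)).fibre p).h1 = 0) :
    Function.Surjective (pos (Div.ofFinite0 I)).d ∧ Function.Bijective
      (LinearMap.toSpanSingleton B (pos (Div.ofFinite0 I)).H0 (posSection (Div.ofFinite0 I))) := by
  have hd := (d_surjective_iff _).mpr h1
  exact ⟨hd, bijective_posSection I
    (fun p ↦ (rankAtStalk_of_isBasisIdeal b I hI p).trans hg) hd⟩

/-- A scalar dividing a function regular on all fibres is a unit. -/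
lemma isUnit_of_ureg0_mem_span {β : B} {p : G.R0 B} (hp : G.UReg0 p)
    (h : p ∈ Ideal.span {algebraMap B (G.R0 B) β}) : IsUnit β := by
  by_contra hβ
  obtain ⟨m, hm, hle⟩ := Ideal.exists_le_maximal (Ideal.span {β})
    (fun h ↦ hβ (Ideal.span_singleton_eq_top.mp h))
  let φ : B →ₐ[k] B ⧸ m := Ideal.Quotient.mkₐ k m
  obtain ⟨r, rfl⟩ := Ideal.mem_span_singleton'.mp h
  have hz := hp (B ⧸ m) φ
  have : G.bc0 φ (algebraMap B (G.R0 B) β) = 0 := by
    rw [Algebra.TensorProduct.algebraMap_apply, Algebra.algebraMap_self, RingHom.id_apply,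
      G.bc0_tmul, show φ β = 0 from Ideal.Quotient.eq_zero_iff_mem.mpr
        (hle (Ideal.mem_span_singleton_self β)), TensorProduct.zero_tmul]
  rw [map_mul, this, mul_zero] at hz
  have : Nontrivial (G.R0 (B ⧸ m)) := (G.algebraMap_R0_injective (B ⧸ m)).nontrivial
  exact zero_notMem_nonZeroDivisors hz

/-- A divisor whose line bundle has only the canonical section is determined by the bundle. -/
theorem eq_of_equiv_pos {E E2 : Div G B}
    (hgen : ∀ z : (pos E).H0, ∃ b : B, b • posSection E = z)
    (e : Equiv (pos E) (pos E2)) : E = E2 := by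
  obtain ⟨β, hβ⟩ := hgen (e.H0Equiv.symm (posSection E2))
  have h2 : posSection E2 = β • e.H0Equiv (posSection E) := by
    rw [← map_smul, hβ, LinearEquiv.apply_symm_apply]
  have h20 : (posSection E2).1.1 = algebraMap B (G.R0 B) β • e.e0 (posSection E).1.1 := by
    rw [algebraMap_smul, h2]
    rfl
  have h21 : (posSection E2).1.2 = algebraMap B (G.R1 B) β • e.e1 (posSection E).1.2 := by
    rw [algebraMap_smul, h2]
    rfl
  have e0 : E2.I0 = Ideal.span {algebraMap B (G.R0 B) β} * E.I0 := by
    rw [← values0_posSection E2, h20, values0_smul, e.values0_eq, values0_posSection]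
  have e1 : E2.I1 = Ideal.span {algebraMap B (G.R1 B) β} * E.I1 := by
    rw [← values1_posSection E2, h21, values1_smul, e.values1_eq, values1_posSection]
  obtain ⟨p, J, hp, hJ⟩ := E2.cofactor0
  have hp2 : p ∈ E2.I0 :=
    (Ideal.mul_le_left : E2.I0 * J ≤ E2.I0) (hJ.ge (Ideal.mem_span_singleton_self p))
  have hp' : p ∈ Ideal.span {algebraMap B (G.R0 B) β} :=
    (Ideal.mul_le_left : Ideal.span {algebraMap B (G.R0 B) β} * E.I0 ≤ _) (e0.le hp2)
  have hu : IsUnit β := isUnit_of_ureg0_mem_span hp hp'
  refine Div.ext' ?_ ?_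
  · rw [e0, Ideal.span_singleton_eq_top.mpr (hu.map _), Ideal.top_mul]
  · rw [e1, Ideal.span_singleton_eq_top.mpr (hu.map _), Ideal.top_mul]

end Datum

end

end Fermat.PIC
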