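import Fermat.Agent.PIC.Hilb.Values
import Fermat.Agent.PIC.Hilb.TrivialH1
import Fermat.Agent.PIC.Chart.TrivialH0
import Mathlib

/-!
# The connecting map of a section which generates near infinity

The cokernel of the section on `U0` maps to the first cohomology of the trivial bundle.
-/

set_option autoImplicit false

universe u

namespace Fermat.PIC

noncomputable section

namespace Datum

variable {k : Type u} [Field k] {G : CurveCharts k} {B : Type u} [CommRing B] [Algebra k B]
  {N : Datum G B} {s : N.H0}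

/-- The components of a global section agree on the overlap. -/
lemma section_compat (s : N.H0) : N.r0 s.1.1 = N.r1 s.1.2 :=
  sub_eq_zero.mp ((N.d_apply s.1).symm.trans s.2)

/-- A section generating near infinity has a value coprime to `y`. -/
lemma exists_coprime_values1 (hs : N.values1 s.1.2 ⊔ Ideal.span {G.Y1 B} = ⊤) :
    ∃ φ : Module.Dual (G.R1 B) N.P1, IsCoprime (G.Y1 B) (φ s.1.2) := by
  obtain ⟨_, ⟨φ, rfl⟩, w, hw, h⟩ := Submodule.mem_sup.mp
    (hs ▸ Submodule.mem_top : (1 : G.R1 B) ∈ N.values1 s.1.2 ⊔ Ideal.span {G.Y1 B})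
  obtain ⟨a, rfl⟩ := Ideal.mem_span_singleton'.mp hw
  exact ⟨φ, a, 1, by
    change a * G.Y1 B + 1 * φ s.1.2 = 1
    rw [one_mul, add_comm]
    exact h⟩

/-- The decomposition of sections on the overlap along a section. -/
def decompMap (s : N.H0) : N.P1 × G.R01 B →ₗ[B] N.P01 :=
  N.r1.coprod ((LinearMap.toSpanSingleton (G.R01 B) N.P01 (N.r0 s.1.1)).restrictScalars B)

/-- The decomposition map, written out. -/
lemma decompMap_apply (p : N.P1) (c : G.R01 B) :
    decompMap s (p, c) = N.r1 p + c • N.r0 s.1.1 := rfl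

variable (hs : N.values1 s.1.2 ⊔ Ideal.span {G.Y1 B} = ⊤)
include hs

/-- The decomposition map of a section is surjective. -/
lemma decompMap_surjective : Function.Surjective (decompMap s) := by
  obtain ⟨φ, a, c, hac⟩ := exists_coprime_values1 hs
  have step : ∀ (n : ℕ) (p : N.P1),
      ∃ e : G.R1 B, p = G.Y1 B ^ n • a ^ n • p + e • s.1.2 := by
    intro n
    induction n with
    | zero => exact fun p ↦ ⟨0, by simp⟩
    | succ n ih =>
      intro p
      obtain ⟨e, he⟩ := ih p
      refine ⟨e + G.Y1 B ^ n * a ^ n * (c * φ p), ?_⟩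
      have h1 : p = (G.Y1 B * a) • p + (c * φ p) • s.1.2 := by
        conv_lhs => rw [← one_smul (G.R1 B) p, ← hac]
        rw [add_smul, mul_comm a, mul_smul c, invertible_dual_smul_comm φ, ← mul_smul]
      conv_lhs => rw [he]
      rw [← mul_smul, ← mul_smul]
      conv_lhs => arg 1; rw [h1]
      rw [smul_add, ← mul_smul, ← mul_smul, add_assoc, ← add_smul]
      congr 2 <;> ring
  intro z
  obtain ⟨n, p, hp⟩ := N.r1_surj z
  obtain ⟨e, he⟩ := step n p
  refine ⟨(a ^ n • p, (G.xUnit B : G.R01 B) ^ n * G.ρ1 B e), ?_⟩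
  refine ((G.xUnit B)⁻¹.isUnit.pow n).smul_left_cancel.mp ?_
  rw [← hp, decompMap_apply, smul_add, ← mul_smul, ← mul_assoc, ← mul_pow, Units.inv_mul, one_pow,
    one_mul, section_compat, ← N.r1_smul]
  conv_rhs => rw [he, map_add, N.r1_smul (G.Y1 B ^ n)]
  rw [map_pow]
  rfl

/-- In a vanishing decomposition the function extends to the second chart. -/
lemma exists_ρ1_of_decompMap_eq_zero {p : N.P1} {c : G.R01 B} (h : decompMap s (p, c) = 0) :
    ∃ e : G.R1 B, G.ρ1 B e = c := by
  obtain ⟨φ, hco⟩ := exists_coprime_values1 hs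
  obtain ⟨n, e, he⟩ := G.exists_ρ1_eq c
  have h1 := congrArg (N.dualRes1 φ) h
  rw [decompMap_apply, map_add, map_smul, smul_eq_mul, section_compat, map_zero,
    dualRes1_apply, dualRes1_apply] at h1
  have h2 : G.Y1 B ^ n * φ p + e * φ s.1.2 = 0 := G.ρ1_injective B (by
    rw [map_add, map_mul, map_mul, map_pow, he, mul_assoc, ← mul_add, h1, mul_zero, map_zero])
  obtain ⟨e', rfl⟩ : G.Y1 B ^ n ∣ e :=
    (hco.pow_left (m := n)).dvd_of_dvd_mul_right ⟨-φ p, by linear_combination h2⟩
  refine ⟨e', ?_⟩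
  rw [map_mul, map_pow] at he
  exact ((G.xUnit B)⁻¹.isUnit.pow n).mul_left_cancel he

/-- Multiples of the section are distinct. -/
lemma smul_section_eq_zero {a : G.R0 B} (h : a • s.1.1 = 0) : a = 0 := by
  obtain ⟨φ, hco⟩ := exists_coprime_values1 hs
  have h1 : G.ρ0 B a • N.r0 s.1.1 = 0 := by rw [← N.r0_smul, h, map_zero]
  have h2 := congrArg (N.dualRes1 φ) h1
  rw [map_smul, smul_eq_mul, section_compat, dualRes1_apply, map_zero] at h2
  have h3 := (mem_nonZeroDivisors_iff_right.mp (G.ρ1_mem_nonZeroDivisors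
    (CurveCharts.mem_nonZeroDivisors_of_isCoprime1 hco))) _ h2
  exact G.ρ0_injective B (h3.trans (map_zero _).symm)

/-- The class of the function only depends on the decomposed section. -/
lemma ker_decompMap_le :
    LinearMap.ker (decompMap s) ≤
      LinearMap.ker ((LinearMap.range (trivial G B).d).mkQ ∘ₗ LinearMap.snd B N.P1 (G.R01 B)) := by
  rintro ⟨p, c⟩ h
  obtain ⟨e, rfl⟩ := exists_ρ1_of_decompMap_eq_zero hs (LinearMap.mem_ker.mp h)
  rw [LinearMap.mem_ker]
  exact (Submodule.Quotient.mk_eq_zero _).mpr ((trivial G B).range_r1_le ⟨e, rfl⟩)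

/-- The connecting map from the sections on `U0`. -/
def connect : N.P0 →ₗ[B] (trivial G B).H1 :=
  (Submodule.liftQ _
      ((LinearMap.range (trivial G B).d).mkQ ∘ₗ LinearMap.snd B N.P1 (G.R01 B))
      (ker_decompMap_le hs)) ∘ₗ
    ((decompMap s).quotKerEquivOfSurjective (decompMap_surjective hs)).symm.toLinearMap ∘ₗ N.r0

/-- The connecting map is computed by any decomposition. -/
lemma connect_eq {m : N.P0} {p : N.P1} {c : G.R01 B} (h : N.r0 m = N.r1 p + c • N.r0 s.1.1) :
    connect hs m = (LinearMap.range (trivial G B).d).mkQ c := by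
  have e : ((decompMap s).quotKerEquivOfSurjective (decompMap_surjective hs)).symm (N.r0 m) =
      Submodule.Quotient.mk (p, c) := by
    rw [LinearEquiv.symm_apply_eq, LinearMap.quotKerEquivOfSurjective_apply_mk, decompMap_apply]
    exact h
  simp only [connect, LinearMap.coe_comp, Function.comp_apply, LinearEquiv.coe_toLinearMap, e]
  rfl

/-- The connecting map kills the multiples of the section. -/
lemma span_le_ker_connect :
    ((G.R0 B) ∙ s.1.1).restrictScalars B ≤ LinearMap.ker (connect hs) := by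
  intro m hm
  obtain ⟨a, rfl⟩ := Submodule.mem_span_singleton.mp ((Submodule.restrictScalars_mem B _ m).mp hm)
  rw [LinearMap.mem_ker, connect_eq hs (p := 0) (c := G.ρ0 B a) (by simp [N.r0_smul])]
  exact (Submodule.Quotient.mk_eq_zero _).mpr ((trivial G B).range_r0_le ⟨a, rfl⟩)

/-- The connecting map is surjective if the differential is. -/
lemma connect_surjective (hd : Function.Surjective N.d) : Function.Surjective (connect hs) := by
  intro z
  obtain ⟨(c : G.R01 B), rfl⟩ := Submodule.mkQ_surjective _ z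
  obtain ⟨⟨m, p⟩, h⟩ := hd ((show G.R01 B from c) • N.r0 s.1.1)
  refine ⟨m, connect_eq hs (p := p) ?_⟩
  rw [← h, d_apply]
  abel

/-- If the section spans the global sections, the connecting map kills only its multiples. -/
lemma ker_connect_le (hgen : ∀ z : N.H0, ∃ b : B, b • s = z) :
    LinearMap.ker (connect hs) ≤ ((G.R0 B) ∙ s.1.1).restrictScalars B := by
  intro m hm
  obtain ⟨⟨p, c⟩, h⟩ := decompMap_surjective hs (N.r0 m)
  rw [decompMap_apply] at h
  have hm0 := (connect_eq hs h.symm).symm.trans (LinearMap.mem_ker.mp hm)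
  obtain ⟨a, b, rfl⟩ : ∃ (a : G.R0 B) (b : G.R1 B), G.ρ0 B a - G.ρ1 B b = c :=
    let ⟨ab, hab⟩ := (Submodule.Quotient.mk_eq_zero _).mp hm0
    ⟨ab.1, ab.2, hab⟩
  rw [sub_smul, ← N.r0_smul, section_compat, ← N.r1_smul] at h
  obtain ⟨β, hβ⟩ := hgen ⟨(m - a • s.1.1, p - b • s.1.2), by
    rw [LinearMap.mem_ker, d_apply, map_sub, map_sub, ← h]
    abel⟩
  have hm' : β • s.1.1 = m - a • s.1.1 := congrArg (fun z : N.H0 ↦ z.1.1) hβ
  rw [Submodule.restrictScalars_mem, eq_add_of_sub_eq hm'.symm, ← algebraMap_smul (G.R0 B) β]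
  exact add_mem (Submodule.smul_mem _ _ (Submodule.mem_span_singleton_self _))
    (Submodule.smul_mem _ _ (Submodule.mem_span_singleton_self _))

/-- The multiples of the section by the base are distinct. -/
lemma injective_toSpanSingleton : Function.Injective (LinearMap.toSpanSingleton B N.H0 s) := by
  rw [← LinearMap.ker_eq_bot, eq_bot_iff]
  intro b hb
  have h : b • s.1.1 = 0 := congrArg (fun z : N.H0 ↦ z.1.1) (LinearMap.mem_ker.mp hb)
  rw [← algebraMap_smul (G.R0 B) b] at h
  exact G.algebraMap_R0_injective B ((smul_section_eq_zero hs h).trans (map_zero _).symm)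

/-- If the connecting map kills only multiples of the section, it spans the global sections
freely. -/
lemma bijective_toSpanSingleton
    (hker : LinearMap.ker (connect hs) ≤ ((G.R0 B) ∙ s.1.1).restrictScalars B) :
    Function.Bijective (LinearMap.toSpanSingleton B N.H0 s) := by
  refine ⟨injective_toSpanSingleton hs, fun z ↦ ?_⟩
  obtain ⟨a, ha⟩ := Submodule.mem_span_singleton.mp ((Submodule.restrictScalars_mem B _ _).mp
    (hker (LinearMap.mem_ker.mpr ((connect_eq hs (m := z.1.1) (p := z.1.2) (c := 0)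
      (by rw [zero_smul, add_zero, section_compat])).trans (map_zero _)))))
  have h0 : decompMap s (-z.1.2, G.ρ0 B a) = 0 := by
    rw [decompMap_apply, map_neg, ← N.r0_smul, ha, section_compat z, neg_add_cancel]
  obtain ⟨e, he⟩ := exists_ρ1_of_decompMap_eq_zero hs h0
  obtain ⟨b, rfl, rfl⟩ := G.exists_algebraMap_of_ρ_eq B he.symm
  have h1 : z.1.2 = b • s.1.2 := N.r1_inj (by
    rw [map_smul, ← section_compat z, ← ha, algebraMap_smul, map_smul, section_compat])
  exact ⟨b, Subtype.ext (Prod.ext (((algebraMap_smul (G.R0 B) b s.1.1).symm).trans ha) h1.symm)⟩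

end Datum

end

end Fermat.PIC
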