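import Fermat.Agent.PIC.Chart.Fibres
import Mathlib

/-!
# Bijectivity of maps of finite projective modules, tested on fields over the base

`bijLocus` is open, and a map is bijective iff it is so on all residue fields.
-/

set_option autoImplicit false

universe u

namespace Fermat.PIC

noncomputable section

variable {B : Type u} [CommRing B] {F M : Type u} [AddCommGroup F] [AddCommGroup M] [Module B F]
  [Module B M] (f : F →ₗ[B] M)

/-- Surjectivity on a fibre is the vanishing of the fibre of the cokernel. -/
lemma surjective_baseChange_iff_notMem_support [Module.Finite B M] (K : Type u) [Field K]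
    [Algebra B K] :
    Function.Surjective (f.baseChange K) ↔
      fieldPoint B K ∉ Module.support B (M ⧸ LinearMap.range f) := by
  rw [← nontrivial_tensor_field_iff, not_nontrivial_iff_subsingleton]
  have hex := lTensor_exact K (LinearMap.exact_map_mkQ_range f) (Submodule.mkQ_surjective _)
  constructor
  · intro h
    refine subsingleton_of_forall_eq 0 fun z ↦ ?_
    obtain ⟨w, rfl⟩ := LinearMap.lTensor_surjective K
      (Submodule.mkQ_surjective (LinearMap.range f)) z
    exact (hex w).mpr (h w)
  · intro h w
    exact (hex w).mp (Subsingleton.elim _ _)

/-- The points of the base where a map is bijective on the fibre. -/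
def bijLocus : Set (PrimeSpectrum B) :=
  (Module.support B (M ⧸ LinearMap.range f))ᶜ ∩
    {p | Module.rankAtStalk M p = Module.rankAtStalk F p}

variable [Module.Finite B F] [Module.Projective B F] [Module.Finite B M] [Module.Projective B M]

/-- Bijectivity on a fibre only depends on the point of the base. -/
theorem bijective_baseChange_iff (K : Type u) [Field K] [Algebra B K] :
    Function.Bijective (f.baseChange K) ↔ fieldPoint B K ∈ bijLocus f := by
  rw [bijLocus, Set.mem_inter_iff, Set.mem_compl_iff, ← surjective_baseChange_iff_notMem_support,
    Set.mem_ofPred_eq, ← finrank_tensor_field, ← finrank_tensor_field]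
  constructor
  · exact fun h ↦ ⟨h.2, (LinearEquiv.ofBijective _ h).finrank_eq.symm⟩
  · exact fun ⟨hs, hr⟩ ↦
      ⟨(LinearMap.injective_iff_surjective_of_finrank_eq_finrank hr.symm).mpr hs, hs⟩

/-- The locus of bijectivity is open. -/
theorem isOpen_bijLocus : IsOpen (bijLocus f) := by
  have := Module.finitePresentation_of_projective B M
  have := Module.finitePresentation_of_projective B F
  refine Module.isClosed_support.isOpen_compl.inter ?_
  have h := (Module.isLocallyConstant_rankAtStalk (R := B) (M := M)).prodMk
    (Module.isLocallyConstant_rankAtStalk (R := B) (M := F))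
  exact h {q : ℕ × ℕ | q.1 = q.2}

/-- A map is bijective if it is so on all fibres. -/
theorem bijective_of_bijLocus_eq_univ (h : ∀ p, p ∈ bijLocus f) : Function.Bijective f := by
  have hs : Function.Surjective f := by
    rw [← LinearMap.range_eq_top, ← Submodule.Quotient.subsingleton_iff,
      ← Module.support_eq_empty_iff (R := B), Set.eq_empty_iff_forall_notMem]
    exact fun p ↦ (h p).1
  exact Module.bijective_of_surjective_of_rankAtStalk_eq hs fun m _ ↦ (h _).2.symm

/-- A map of finite projective modules is bijective iff it is so on all residue fields. -/
theorem bijective_iff_forall_residueField :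
    Function.Bijective f ↔
      ∀ p : PrimeSpectrum B, Function.Bijective (f.baseChange p.asIdeal.ResidueField) := by
  constructor
  · intro h p
    exact ((LinearEquiv.ofBijective f h).baseChange B p.asIdeal.ResidueField F M).bijective
  · intro h
    refine bijective_of_bijLocus_eq_univ f fun p ↦ ?_
    have := (bijective_baseChange_iff f p.asIdeal.ResidueField).mp (h p)
    rwa [fieldPoint_residueField] at this

end

end Fermat.PIC
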