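import Fermat.Agent.PIC.Hilb.Connecting
import Fermat.Agent.PIC.Ops.Finite
import Mathlib

/-!
# The subscheme cut out by a section

A section spanning the global sections and generating near infinity cuts out a finite locally free
subscheme of `U0` and identifies the datum with its line bundle.
-/

set_option autoImplicit false

universe u

namespace Fermat.PIC

noncomputable section

namespace Datum

variable {k : Type u} [Field k] {G : CurveCharts k} {B : Type u} [CommRing B] [Algebra k B]
  {N : Datum G B} {s : N.H0}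

/-- The cokernel of the section on `U0` is the first cohomology of the trivial bundle. -/
theorem nonempty_quotient_span_equiv (hs : N.values1 s.1.2 ⊔ Ideal.span {G.Y1 B} = ⊤)
    (hd : Function.Surjective N.d) (hgen : ∀ z : N.H0, ∃ b : B, b • s = z) :
    Nonempty ((N.P0 ⧸ (G.R0 B) ∙ s.1.1) ≃ₗ[B] (trivial G B).H1) :=
  ⟨((Submodule.Quotient.restrictScalarsEquiv B ((G.R0 B) ∙ s.1.1)).symm.trans
      (Submodule.quotEquivOfEq _ _
        (le_antisymm (span_le_ker_connect hs) (ker_connect_le hs hgen)))).trans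
    ((connect hs).quotKerEquivOfSurjective (connect_surjective hs hd))⟩

/-- The cokernel of the section on `U0` is free of rank the genus. -/
theorem nonempty_quotient_span_basis (hs : N.values1 s.1.2 ⊔ Ideal.span {G.Y1 B} = ⊤)
    (hd : Function.Surjective N.d) (hgen : ∀ z : N.H0, ∃ b : B, b • s = z) :
    Nonempty (Module.Basis (Fin G.genus) B (N.P0 ⧸ (G.R0 B) ∙ s.1.1)) :=
  let ⟨e⟩ := nonempty_quotient_span_equiv hs hd hgen
  let ⟨b⟩ := nonempty_trivial_H1_basis G B
  ⟨b.map e.symm⟩

/-- The values on an element give a retract of finitely many copies of its cokernel. -/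
lemma exists_retract (N : Datum G B) (p : N.P0) :
    ∃ (n : ℕ) (ι : (G.R0 B ⧸ N.values0 p) →ₗ[G.R0 B] Fin n → N.P0 ⧸ (G.R0 B) ∙ p)
      (π : (Fin n → N.P0 ⧸ (G.R0 B) ∙ p) →ₗ[G.R0 B] G.R0 B ⧸ N.values0 p),
      π ∘ₗ ι = LinearMap.id := by
  obtain ⟨n, b, φ, hb⟩ := exists_dual_basis (G.R0 B) N.P0
  let Q := (G.R0 B) ∙ p
  let ι0 : G.R0 B →ₗ[G.R0 B] Fin n → N.P0 ⧸ Q :=
    LinearMap.pi fun i ↦ LinearMap.toSpanSingleton (G.R0 B) _ (Submodule.Quotient.mk (b i))
  have hι : N.values0 p ≤ LinearMap.ker ι0 := by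
    rintro _ ⟨ψ, rfl⟩
    rw [LinearMap.mem_ker]
    funext i
    change ψ p • Submodule.Quotient.mk (b i) = (0 : N.P0 ⧸ Q)
    rw [← Submodule.Quotient.mk_smul, Submodule.Quotient.mk_eq_zero, invertible_dual_smul_comm]
    exact Submodule.smul_mem _ _ (Submodule.mem_span_singleton_self p)
  let π : (Fin n → N.P0 ⧸ Q) →ₗ[G.R0 B] G.R0 B ⧸ N.values0 p :=
    ∑ i, (Q.liftQ ((N.values0 p).mkQ ∘ₗ φ i) (by
      rw [Submodule.span_singleton_le_iff_mem, LinearMap.mem_ker]
      exact (Submodule.Quotient.mk_eq_zero _).mpr ⟨φ i, rfl⟩)).comp (LinearMap.proj i)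
  refine ⟨n, Submodule.liftQ _ ι0 hι, π, Submodule.linearMap_qext _ (LinearMap.ext_ring ?_)⟩
  simp only [π, ι0, LinearMap.coe_comp, Function.comp_apply, Submodule.mkQ_apply,
    Submodule.liftQ_apply, LinearMap.coe_sum, Finset.sum_apply, LinearMap.proj_apply,
    LinearMap.pi_apply, LinearMap.toSpanSingleton_apply_one, LinearMap.id_apply]
  rw [← Submodule.mkQ_apply, ← sum_dual_basis_eq_one b φ hb, map_sum]
  rfl

/-- The quotient by the values of the section is finite over the base. -/
theorem finite_quotient_values0 (hs : N.values1 s.1.2 ⊔ Ideal.span {G.Y1 B} = ⊤)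
    (hd : Function.Surjective N.d) (hgen : ∀ z : N.H0, ∃ b : B, b • s = z) :
    Module.Finite B (G.R0 B ⧸ N.values0 s.1.1) := by
  obtain ⟨bQ⟩ := nonempty_quotient_span_basis hs hd hgen
  have := Module.Finite.of_basis bQ
  obtain ⟨n, ι, π, h⟩ := exists_retract N s.1.1
  exact Module.Finite.of_surjective (π.restrictScalars B)
    fun z ↦ ⟨ι z, LinearMap.congr_fun h z⟩

/-- The quotient by the values of the section is projective over the base. -/
theorem projective_quotient_values0 (hs : N.values1 s.1.2 ⊔ Ideal.span {G.Y1 B} = ⊤)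
    (hd : Function.Surjective N.d) (hgen : ∀ z : N.H0, ∃ b : B, b • s = z) :
    Module.Projective B (G.R0 B ⧸ N.values0 s.1.1) := by
  obtain ⟨bQ⟩ := nonempty_quotient_span_basis hs hd hgen
  have := Module.Free.of_basis bQ
  obtain ⟨n, ι, π, h⟩ := exists_retract N s.1.1
  exact Module.Projective.of_split (ι.restrictScalars B) (π.restrictScalars B)
    (LinearMap.ext fun z ↦ LinearMap.congr_fun h z)

/-- The divisor of the values of a section generating near infinity. -/
theorem ofFinite0_values0_I1 (hs : N.values1 s.1.2 ⊔ Ideal.span {G.Y1 B} = ⊤)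
    [Module.Finite B (G.R0 B ⧸ N.values0 s.1.1)] [Module.Projective B (G.R0 B ⧸ N.values0 s.1.1)] :
    (Div.ofFinite0 (N.values0 s.1.1)).I1 = N.values1 s.1.2 := by
  obtain ⟨φ, hco⟩ := exists_coprime_values1 hs
  rw [Div.ofFinite0_I1, values_compat]
  refine le_antisymm (fun a ha ↦ ?_) Ideal.le_comap_map
  exact (G.isChartMap1 B).mem_of_map_mem hco ha (Ideal.mul_mem_right _ _ ⟨φ, rfl⟩)

/-- A section generating near infinity, with finite projective zero scheme on `U0`, identifies
the datum with the line bundle of that scheme. -/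
theorem exists_equiv_pos_values0 (hs : N.values1 s.1.2 ⊔ Ideal.span {G.Y1 B} = ⊤)
    [Module.Finite B (G.R0 B ⧸ N.values0 s.1.1)] [Module.Projective B (G.R0 B ⧸ N.values0 s.1.1)] :
    ∃ e : Equiv N (pos (Div.ofFinite0 (N.values0 s.1.1))),
      e.e0 s.1.1 = (posSection (Div.ofFinite0 (N.values0 s.1.1))).1.1 ∧
      e.e1 s.1.2 = (posSection (Div.ofFinite0 (N.values0 s.1.1))).1.2 :=
  exists_equiv_of_section N _ s rfl (ofFinite0_values0_I1 hs).symm

/-- **The section theorem.** If `d` is surjective and a section generating near infinity is a basis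
of the global sections, its zero scheme on `U0` is finite projective and the datum is its line
bundle. -/
theorem section_classify (hd : Function.Surjective N.d)
    (hb : Function.Bijective (LinearMap.toSpanSingleton B N.H0 s))
    (hs : N.values1 s.1.2 ⊔ Ideal.span {G.Y1 B} = ⊤) :
    ∃ (_ : Module.Finite B (G.R0 B ⧸ N.values0 s.1.1))
      (_ : Module.Projective B (G.R0 B ⧸ N.values0 s.1.1)),
      (Div.ofFinite0 (N.values0 s.1.1)).I1 = N.values1 s.1.2 ∧
      Nonempty (Equiv N (pos (Div.ofFinite0 (N.values0 s.1.1)))) := by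
  have hgen : ∀ z : N.H0, ∃ b : B, b • s = z := fun z ↦ hb.2 z
  have h1 := finite_quotient_values0 hs hd hgen
  have h2 := projective_quotient_values0 hs hd hgen
  exact ⟨h1, h2, ofFinite0_values0_I1 hs, ⟨(exists_equiv_pos_values0 hs).choose⟩⟩

end Datum

end

end Fermat.PIC
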